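import Mathlib
import Fermat.Agent.MU.Lib.RR.Hurwitz.Fibres
import Fermat.Agent.S27.GR.Places

section MergeWrap_S27_Red_BranchFin -- from S27/Red/BranchFin.lean

set_option autoImplicit false
set_option linter.style.haveILetI false

noncomputable section

open AlgebraicCurve Fermat.Agent.RR Fermat.Agent.RRHur IntermediateField

namespace Fermat.Agent.S27

variable {K F : Type*} [Field K] [Field F] [Algebra K F]

/-- every fibre has at most `n = [F : K(x)]` places. -/
theorem c3_card_fibre_le (hF : IsRRField K F) {x : F} (hx : Transcendental K x)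
    [FiniteDimensional K⟮x⟯ F] (c : K) :
    (Nat.card {v : Place K F // 0 < v.ord (x - algebraMap K F c)} : ℤ) ≤
      Module.finrank K⟮x⟯ F := by
  have h1 := degree_ramAt hF hx c
  have h2 : (0 : Divisor K F) ≤ ramAt hF x c := by
    rw [Finsupp.le_def]
    intro w
    rw [ramAt_apply]
    exact le_max_right _ _
  have h3 := degree_nonneg_of_nonneg hF h2
  omega

/-- the pole fibre has at most `n = [F : K(x)]` places. -/
theorem c3_card_poleFibre_le (hF : IsRRField K F) {x : F} (hx : Transcendental K x)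
    [FiniteDimensional K⟮x⟯ F] :
    (Nat.card {v : Place K F // v.ord x < 0} : ℤ) ≤ Module.finrank K⟮x⟯ F := by
  have h1 := degree_ramInf hF hx
  have h2 : (0 : Divisor K F) ≤ ramInf hF x := by
    rw [Finsupp.le_def]
    intro w
    rw [ramInf_apply]
    exact le_max_right _ _
  have h3 := degree_nonneg_of_nonneg hF h2
  omega

/-- **finitely many branch values**. -/
theorem finite_branchValues [IsAlgClosed K] (hF : IsRRField K F) {x : F}
    (hx : Transcendental K x) [FiniteDimensional K⟮x⟯ F] [Algebra.IsSeparable K⟮x⟯ F] :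
    {c : K | Nat.card {v : Place K F // 0 < v.ord (x - algebraMap K F c)} ≠
      Module.finrank K⟮x⟯ F}.Finite := by
  classical
  by_contra hinf
  rw [Set.not_finite] at hinf
  set n := Module.finrank K⟮x⟯ F with hn
  set M : ℕ := 2 * genusFF K F + 2 * n with hM
  obtain ⟨S, hS, hcard⟩ := hinf.exists_subset_card_eq M
  have hlow := hurwitz_lower_fibres hF hx S
  have hinf' := c3_card_poleFibre_le hF hx
  rw [← hn] at hlow hinf'
  have h1 : ∀ c ∈ S, (1 : ℤ) ≤ (n : ℤ) -
      (Nat.card {v : Place K F // 0 < v.ord (x - algebraMap K F c)} : ℤ) := by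
    intro c hc
    have hle := c3_card_fibre_le hF hx c
    have hne : Nat.card {v : Place K F // 0 < v.ord (x - algebraMap K F c)} ≠ n := hS hc
    have hne' : (Nat.card {v : Place K F // 0 < v.ord (x - algebraMap K F c)} : ℤ) ≠ (n : ℤ) := by
      exact_mod_cast hne
    omega
  have h2 : (S.card : ℤ) ≤ ∑ c ∈ S, ((n : ℤ) -
      (Nat.card {v : Place K F // 0 < v.ord (x - algebraMap K F c)} : ℤ)) := by
    have := Finset.sum_le_sum h1
    simpa using this
  rw [hcard] at h2
  have h3 : (M : ℤ) = 2 * (genusFF K F : ℤ) + 2 * (n : ℤ) := by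
    rw [hM]; push_cast; ring
  omega

/-- **generic fibres**: there is a finite set outside which all fibres have `n` places. -/
theorem exists_finset_unramified [IsAlgClosed K] (hF : IsRRField K F) {x : F}
    (hx : Transcendental K x) [FiniteDimensional K⟮x⟯ F] [Algebra.IsSeparable K⟮x⟯ F] :
    ∃ S : Finset K, ∀ c : K, c ∉ S →
      Nat.card {v : Place K F // 0 < v.ord (x - algebraMap K F c)} = Module.finrank K⟮x⟯ F := by
  classical
  refine ⟨(finite_branchValues hF hx).toFinset, fun c hc => ?_⟩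
  by_contra hne
  exact hc ((Set.Finite.mem_toFinset _).mpr hne)

/-- the set of ramification points (over the affine line) of a separable function is finite. -/
theorem finite_ramified [IsAlgClosed K] (hF : IsRRField K F) {x : F}
    (hx : Transcendental K x) [FiniteDimensional K⟮x⟯ F] [Algebra.IsSeparable K⟮x⟯ F] :
    {v : Place K F | ∃ c : K, 2 ≤ v.ord (x - algebraMap K F c)}.Finite := by
  classical
  obtain ⟨S, hS⟩ := exists_finset_unramified hF hx
  have hfin : (⋃ c ∈ S, {v : Place K F | 0 < v.ord (x - algebraMap K F c)}).Finite :=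
    Set.Finite.biUnion S.finite_toSet fun c _ => finite_zeros hF (x - algebraMap K F c)
  refine hfin.subset ?_
  rintro v ⟨c, hc⟩
  by_cases hcS : c ∈ S
  · exact Set.mem_biUnion hcS (show 0 < v.ord (x - algebraMap K F c) by omega)
  · have := ord_eq_one_of_card_eq hF hx c (hS c hcS) v (by omega)
    omega

end Fermat.Agent.S27
end
end MergeWrap_S27_Red_BranchFin

section MergeWrap_S27_Red_Branch -- from S27/Red/Branch.lean

set_option autoImplicit false
set_option linter.style.haveILetI false

noncomputable section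

open AlgebraicCurve Fermat.Agent.RR IntermediateField

namespace Fermat.Agent.S27

variable {K F : Type*} [Field K] [Field F] [Algebra K F]

/-- **generic fibres** in terms of `S27GR.fibreCard`. -/
theorem exists_branchSet [IsAlgClosed K] (hF : IsRRField K F) {x : F}
    (hx : Transcendental K x) [FiniteDimensional K⟮x⟯ F] [Algebra.IsSeparable K⟮x⟯ F] :
    ∃ S : Finset K, ∀ c : K, c ∉ S →
      Fermat.Agent.S27GR.fibreCard K x c = Module.finrank K⟮x⟯ F := by
  obtain ⟨S, hS⟩ := exists_finset_unramified hF hx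
  refine ⟨S, fun c hc => ?_⟩
  rw [Fermat.Agent.S27GR.fibreCard_eq_card_zeros hx c]
  exact hS c hc

open Classical in
/-- the elements that must be units: nonzero branch values and nonzero differences. -/
def branchUnits (S : Finset K) : Finset K :=
  (S ∪ (S ×ˢ S).image (fun p => p.1 - p.2)).erase 0

theorem mem_branchUnits_of_mem {S : Finset K} {c : K} (hc : c ∈ S) (hc0 : c ≠ 0) :
    c ∈ branchUnits S := by
  classical
  rw [branchUnits, Finset.mem_erase]
  exact ⟨hc0, Finset.mem_union_left _ hc⟩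

theorem sub_mem_branchUnits {S : Finset K} {c c' : K} (hc : c ∈ S) (hc' : c' ∈ S)
    (hne : c ≠ c') : c - c' ∈ branchUnits S := by
  classical
  rw [branchUnits, Finset.mem_erase]
  refine ⟨sub_ne_zero.mpr hne, Finset.mem_union_right _ ?_⟩
  rw [Finset.mem_image]
  exact ⟨(c, c'), Finset.mem_product.mpr ⟨hc, hc'⟩, rfl⟩

theorem ne_zero_of_mem_branchUnits {S : Finset K} {t : K} (ht : t ∈ branchUnits S) : t ≠ 0 := by
  classical
  rw [branchUnits, Finset.mem_erase] at ht
  exact ht.1

variable {k Fk : Type*} [Field k] [Field Fk] [Algebra k Fk]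

/-- an element of `A` whose inverse is in `A` has nonzero residue. -/
theorem c3_res_ne_zero_of_inv_mem (M : Fermat.Agent.S27GR.RedModel K k F Fk) {t : K}
    (ht : t ∈ M.A) (hti : t⁻¹ ∈ M.A) (ht0 : t ≠ 0) : M.res ⟨t, ht⟩ ≠ 0 := by
  intro h0
  rw [M.res_eq_zero] at h0
  apply h0
  refine isUnit_iff_exists_inv.mpr ⟨⟨t⁻¹, hti⟩, ?_⟩
  apply Subtype.ext
  show t * t⁻¹ = 1
  exact mul_inv_cancel₀ ht0

/-- **branch data** of a reduction model from a branch set whose units are units of `A`. -/
def branchDataOf (M : Fermat.Agent.S27GR.RedModel K k F Fk) (n : ℕ) (S : Finset K)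
    (hunr : ∀ c : K, c ∉ S → Fermat.Agent.S27GR.fibreCard K M.x c = n)
    (hT : ∀ t ∈ branchUnits S, t ∈ M.A ∧ t⁻¹ ∈ M.A) :
    Fermat.Agent.S27GR.BranchData M n where
  S := S
  S_mem := by
    intro c hc
    rcases eq_or_ne c 0 with rfl | hc0
    · exact M.A.zero_mem
    · exact (hT c (mem_branchUnits_of_mem hc hc0)).1
  S_inj := by
    intro c hc c' hc' hcA hc'A hres
    by_contra hne
    have ht := hT (c - c') (sub_mem_branchUnits hc hc' hne)
    have h1 := c3_res_ne_zero_of_inv_mem M ht.1 ht.2 (sub_ne_zero.mpr hne)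
    apply h1
    have h2 : (⟨c - c', ht.1⟩ : M.A) = ⟨c, hcA⟩ - ⟨c', hc'A⟩ := rfl
    rw [h2, map_sub, hres, sub_self]
  unram := hunr

@[simp] theorem branchDataOf_S (M : Fermat.Agent.S27GR.RedModel K k F Fk) (n : ℕ) (S : Finset K)
    (hunr : ∀ c : K, c ∉ S → Fermat.Agent.S27GR.fibreCard K M.x c = n)
    (hT : ∀ t ∈ branchUnits S, t ∈ M.A ∧ t⁻¹ ∈ M.A) :
    (branchDataOf M n S hunr hT).S = S := rfl

/-- the hypothesis `hS` of `S27GR.genusFF_eq_of_branchData`. -/
theorem branchDataOf_inv_mem (M : Fermat.Agent.S27GR.RedModel K k F Fk) (n : ℕ) (S : Finset K)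
    (hunr : ∀ c : K, c ∉ S → Fermat.Agent.S27GR.fibreCard K M.x c = n)
    (hT : ∀ t ∈ branchUnits S, t ∈ M.A ∧ t⁻¹ ∈ M.A) :
    ∀ c ∈ (branchDataOf M n S hunr hT).S, c ≠ 0 → c⁻¹ ∈ M.A := by
  intro c hc hc0
  exact (hT c (mem_branchUnits_of_mem hc hc0)).2

/-- **C3, packaged**: branch set of `M.x` together with the branch data of every reduction
model in which the branch units are units. -/
theorem exists_branchData [IsAlgClosed K] (hF : IsRRField K F) {x : F}
    (hx : Transcendental K x) [FiniteDimensional K⟮x⟯ F] [Algebra.IsSeparable K⟮x⟯ F] :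
    ∃ T : Finset K, (∀ t ∈ T, t ≠ 0) ∧
      ∀ (M : Fermat.Agent.S27GR.RedModel K k F Fk), M.x = x →
        (∀ t ∈ T, t ∈ M.A ∧ t⁻¹ ∈ M.A) →
        ∃ BD : Fermat.Agent.S27GR.BranchData M (Module.finrank K⟮x⟯ F),
          ∀ c ∈ BD.S, c ≠ 0 → c⁻¹ ∈ M.A := by
  obtain ⟨S, hS⟩ := exists_branchSet hF hx
  refine ⟨branchUnits S, fun t ht => ne_zero_of_mem_branchUnits ht, fun M hMx hT => ?_⟩
  have hunr : ∀ c : K, c ∉ S →
      Fermat.Agent.S27GR.fibreCard K M.x c = Module.finrank K⟮x⟯ F := by
    rw [hMx]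
    exact hS
  exact ⟨branchDataOf M _ S hunr hT, branchDataOf_inv_mem M _ S hunr hT⟩

end Fermat.Agent.S27
end
end MergeWrap_S27_Red_Branch
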